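/-
S33 programme, brick O1b (helper12): quotient Hopf orders.

`Core.lean` — the saturation argument.  `H` a finitely generated `W`-lattice of functions
`C → Ω` (`W` a PID inside the field `Ω`), `N ≤ H` a saturated submodule.  If a `W`-basis of `H`
stays independent over `Ω` then every `Δ`-decomposition `h (x + y) = ∑ a i x * b i y` with
`a i, b i ∈ H` whose partial functions lie in the `Ω`-span of `N` can be rewritten with
`a i, b i ∈ N`.  Mathlib only.
-/
import Mathlib
import Fermat.Agent.S33P.HopfQuot12.Split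

set_option autoImplicit false

namespace Fermat.Agent.S33P.HopfQuot12

open Module

section Core

variable {W Ω C : Type*} [CommRing W] [IsDomain W] [IsPrincipalIdealRing W] [Field Ω]
  [Algebra W Ω]

/-- The `Ω`-linear extension of a `W`-linear map out of a lattice with a chosen basis. -/
noncomputable def extΩ {m : ℕ} {H : Submodule W (C → Ω)} (e : Basis (Fin m) W H)
    (φ : H →ₗ[W] (C → Ω)) : (Fin m → Ω) →ₗ[Ω] (C → Ω) :=
  Fintype.linearCombination Ω (fun k => φ (e k))

/-- The coordinates of an element of the lattice, viewed in `Ω`. -/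
noncomputable def coordsΩ {m : ℕ} {H : Submodule W (C → Ω)} (e : Basis (Fin m) W H)
    (a : H) : Fin m → Ω := fun k => algebraMap W Ω (e.repr a k)

omit [IsDomain W] [IsPrincipalIdealRing W] in
theorem extΩ_coordsΩ {m : ℕ} {H : Submodule W (C → Ω)} (e : Basis (Fin m) W H)
    (φ : H →ₗ[W] (C → Ω)) (a : H) : extΩ e φ (coordsΩ e a) = φ a := by
  conv_rhs => rw [← e.sum_repr a]
  rw [map_sum, extΩ, Fintype.linearCombination_apply]
  refine Finset.sum_congr rfl fun k _ => ?_
  rw [map_smul, coordsΩ]
  funext x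
  simp [Algebra.smul_def]

/-- **Key lemma.**  Let `π` be a `W`-linear retraction of the lattice `H` onto the submodule `N`.
If an `Ω`-linear combination of elements of `H` lies in the `Ω`-span of `N`, then applying `π`
to the elements does not change it. -/
theorem sum_smul_proj_eq (hinj : Function.Injective (algebraMap W Ω))
    (H : Submodule W (C → Ω)) (hfg : H.FG) (N : Submodule W (C → Ω))
    (hindep : ∀ (m : ℕ) (v : Fin m → C → Ω), (∀ i, v i ∈ H) → LinearIndependent W v →
      LinearIndependent Ω v)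
    (π : H →ₗ[W] H) (hπid : ∀ a : H, (a : C → Ω) ∈ N → π a = a) (hNH : N ≤ H)
    {n : ℕ} (a : Fin n → H) (β : Fin n → Ω)
    (hg : ∑ i, β i • (a i : C → Ω) ∈ Submodule.span Ω (N : Set (C → Ω))) :
    ∑ i, β i • ((π (a i) : H) : C → Ω) = ∑ i, β i • (a i : C → Ω) := by
  classical
  have : Module.Finite W H := Module.Finite.iff_fg.mpr hfg
  have : IsTorsionFree W Ω := isTorsionFree_iff_algebraMap_injective.mpr hinj
  obtain ⟨m, e⟩ := Module.basisOfFiniteTypeTorsionFree' (R := W) (M := H)
  -- the two extensions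
  set E := extΩ e H.subtype with hE
  set Pr := extΩ e (H.subtype ∘ₗ π) with hPr
  -- `E` is injective
  have hEinj : Function.Injective E := by
    have hW : LinearIndependent W (fun k => ((e k : H) : C → Ω)) :=
      e.linearIndependent.map' H.subtype (Submodule.ker_subtype H)
    have hΩ := hindep m _ (fun k => (e k).2) hW
    rw [← LinearMap.ker_eq_bot, LinearMap.ker_eq_bot']
    intro γ hγ
    have := Fintype.linearIndependent_iff.mp hΩ γ
      (by simpa [hE, extΩ, Fintype.linearCombination_apply] using hγ)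
    exact funext this
  -- the submodule on which the two extensions agree
  set S : Submodule Ω (C → Ω) := Submodule.map E (LinearMap.ker (E - Pr)) with hS
  have hNS : Submodule.span Ω (N : Set (C → Ω)) ≤ S := by
    rw [Submodule.span_le]
    intro f hf
    refine ⟨coordsΩ e ⟨f, hNH hf⟩, ?_, ?_⟩
    · rw [SetLike.mem_coe, LinearMap.mem_ker, LinearMap.sub_apply, hE, hPr, extΩ_coordsΩ, extΩ_coordsΩ,
        LinearMap.comp_apply, hπid ⟨f, hNH hf⟩ hf, sub_self]
    · rw [hE, extΩ_coordsΩ]
      rfl
  -- the coefficient vector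
  set γ' : Fin m → Ω := ∑ i, β i • coordsΩ e (a i) with hγ'
  have hEγ' : E γ' = ∑ i, β i • (a i : C → Ω) := by
    rw [hγ', map_sum]
    refine Finset.sum_congr rfl fun i _ => ?_
    rw [map_smul, hE, extΩ_coordsΩ]
    rfl
  have hPrγ' : Pr γ' = ∑ i, β i • ((π (a i) : H) : C → Ω) := by
    rw [hγ', map_sum]
    refine Finset.sum_congr rfl fun i _ => ?_
    rw [map_smul, hPr, extΩ_coordsΩ]
    rfl
  obtain ⟨γ, hγker, hγE⟩ := hNS hg
  have hγγ' : γ = γ' := hEinj (hγE.trans hEγ'.symm)
  rw [hγγ', SetLike.mem_coe, LinearMap.mem_ker, LinearMap.sub_apply, sub_eq_zero] at hγker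
  rw [← hPrγ', ← hγker, hEγ']

/-- **Saturation argument.**  `H` a finitely generated lattice of functions `C → Ω` over the
PID `W ⊆ Ω`, `N ≤ H` a saturated submodule, and `W`-independent families in `H` are
`Ω`-independent.  If `h (x + y) = ∑ a i x * b i y` with `a i, b i ∈ H` and all the partial
functions `h (· + y)`, `h (x + ·)` lie in the `Ω`-span of `N`, then the same identity holds with
`a i, b i ∈ N`. -/
theorem exists_decomp_of_saturated (hinj : Function.Injective (algebraMap W Ω))
    [Add C] (H : Submodule W (C → Ω)) (hfg : H.FG) (N : Submodule W (C → Ω)) (hNH : N ≤ H)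
    (hsat : ∀ (w : W) (f : C → Ω), w ≠ 0 → f ∈ H → w • f ∈ N → f ∈ N)
    (hindep : ∀ (m : ℕ) (v : Fin m → C → Ω), (∀ i, v i ∈ H) → LinearIndependent W v →
      LinearIndependent Ω v)
    (h : C → Ω) {n : ℕ} (a b : Fin n → C → Ω) (ha : ∀ i, a i ∈ H) (hb : ∀ i, b i ∈ H)
    (hΔ : ∀ x y, h (x + y) = ∑ i, a i x * b i y)
    (hleft : ∀ y, (fun x => h (x + y)) ∈ Submodule.span Ω (N : Set (C → Ω)))
    (hright : ∀ x, (fun y => h (x + y)) ∈ Submodule.span Ω (N : Set (C → Ω))) :
    ∃ a' b' : Fin n → C → Ω, (∀ i, a' i ∈ N) ∧ (∀ i, b' i ∈ N) ∧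
      ∀ x y, h (x + y) = ∑ i, a' i x * b' i y := by
  classical
  have : Module.Finite W H := Module.Finite.iff_fg.mpr hfg
  -- the retraction
  obtain ⟨π, hπN, hπid⟩ := exists_proj_of_saturated (W := W) (M := H)
    (N.comap H.subtype) (fun w f hw hf => by
      simp only [Submodule.mem_comap, Submodule.subtype_apply, Submodule.coe_smul] at hf ⊢
      exact hsat w f hw f.2 hf)
  have hπN' : ∀ f : H, ((π f : H) : C → Ω) ∈ N := fun f => hπN f
  have hπid' : ∀ f : H, (f : C → Ω) ∈ N → π f = f := fun f hf => hπid f hf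
  refine ⟨fun i => (π ⟨a i, ha i⟩ : H), fun i => (π ⟨b i, hb i⟩ : H), fun i => hπN' _,
    fun i => hπN' _, ?_⟩
  -- step 1: project the `a i`
  have h1 : ∀ x y, h (x + y) = ∑ i, ((π ⟨a i, ha i⟩ : H) : C → Ω) x * b i y := by
    intro x y
    have hy : ∑ i, b i y • ((⟨a i, ha i⟩ : H) : C → Ω) = fun x => h (x + y) := by
      funext x
      simp only [Finset.sum_apply, Pi.smul_apply, smul_eq_mul, hΔ x y]
      exact Finset.sum_congr rfl fun i _ => mul_comm _ _
    have key := sum_smul_proj_eq hinj H hfg N hindep π hπid' hNH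
      (fun i => (⟨a i, ha i⟩ : H)) (fun i => b i y) (by rw [hy]; exact hleft y)
    have := congrFun (key.trans hy) x
    simp only [Finset.sum_apply, Pi.smul_apply, smul_eq_mul] at this
    rw [← this]
    exact Finset.sum_congr rfl fun i _ => mul_comm _ _
  -- step 2: project the `b i`
  intro x y
  have hx : ∑ i, ((π ⟨a i, ha i⟩ : H) : C → Ω) x • ((⟨b i, hb i⟩ : H) : C → Ω) =
      fun y => h (x + y) := by
    funext y
    simp only [Finset.sum_apply, Pi.smul_apply, smul_eq_mul, h1 x y]
  have key := sum_smul_proj_eq hinj H hfg N hindep π hπid' hNH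
    (fun i => (⟨b i, hb i⟩ : H)) (fun i => ((π ⟨a i, ha i⟩ : H) : C → Ω) x)
    (by rw [hx]; exact hright x)
  have := congrFun (key.trans hx) y
  simp only [Finset.sum_apply, Pi.smul_apply, smul_eq_mul] at this
  exact this.symm

end Core

end Fermat.Agent.S33P.HopfQuot12
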