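/-
S33 programme, brick O1b (helper12): quotient Hopf orders.

`Descent.lean` — Galois-descent independence: a family of `I`-equivariant functions `C → Ω`
that is linearly independent over a subfield `K ⊇ Ω^I` is linearly independent over `Ω`.
Mathlib only.
-/
import Mathlib

set_option autoImplicit false

namespace Fermat.Agent.S33P.HopfQuot12

open Finset

section Descent

variable {I : Type*} [Group I] {Ω : Type*} [Field Ω] [MulSemiringAction I Ω]
  {C : Type*} [MulAction I C]

/-- A function `C → Ω` is equivariant for the actions of `I` on `C` and on `Ω`. -/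
def IsEquivariant (I : Type*) [Group I] {Ω : Type*} [Field Ω] [MulSemiringAction I Ω]
    {C : Type*} [MulAction I C] (h : C → Ω) : Prop :=
  ∀ (τ : I) (x : C), h (τ • x) = τ • h x

theorem IsEquivariant.apply_inv_smul {h : C → Ω} (hh : IsEquivariant I h) (τ : I) (x : C) :
    τ • h (τ⁻¹ • x) = h x := by
  rw [← hh τ (τ⁻¹ • x), smul_inv_smul]

/-- Twisting an `Ω`-linear relation between equivariant functions by `τ ∈ I`. -/
theorem sum_smul_smul_eq_zero {ι : Type*} (e : ι → C → Ω) (he : ∀ k, IsEquivariant I (e k))
    (s : Finset ι) (g : ι → Ω) (hg : ∑ i ∈ s, g i • e i = 0) (τ : I) :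
    ∑ i ∈ s, (τ • g i) • e i = 0 := by
  funext x
  have h1 : ∑ i ∈ s, g i * e i (τ⁻¹ • x) = 0 := by
    have := congrFun hg (τ⁻¹ • x)
    simpa [Finset.sum_apply, Pi.smul_apply, smul_eq_mul] using this
  have h2 := congrArg (fun z => τ • z) h1
  simp only [Finset.smul_sum, smul_mul', smul_zero] at h2
  simp only [Finset.sum_apply, Pi.smul_apply, smul_eq_mul, Pi.zero_apply]
  rw [← h2]
  refine Finset.sum_congr rfl fun i _ => ?_
  rw [(he i).apply_inv_smul τ x]

/-- **Galois descent, independence form.**  Let `K ⊆ Ω` be a subfield containing the fixed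
field of `I`.  A family of `I`-equivariant functions `C → Ω` that is linearly independent over
`K` is linearly independent over `Ω`. -/
theorem linearIndependent_of_isEquivariant {K : Type*} [Field K] [Algebra K Ω]
    (hfix : ∀ x : Ω, (∀ τ : I, τ • x = x) → x ∈ (algebraMap K Ω).range)
    {ι : Type*} (e : ι → C → Ω) (he : ∀ k, IsEquivariant I (e k))
    (hK : LinearIndependent K e) : LinearIndependent Ω e := by
  classical
  rw [linearIndependent_iff']
  -- strong induction on the cardinality of the support
  suffices H : ∀ n : ℕ, ∀ s : Finset ι, s.card = n → ∀ g : ι → Ω,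
      ∑ i ∈ s, g i • e i = 0 → ∀ i ∈ s, g i = 0 from fun s g hg i hi => H _ s rfl g hg i hi
  intro n
  induction n using Nat.strong_induction_on with
  | _ n ih =>
    intro s hs g hg
    by_contra hcon
    push Not at hcon
    obtain ⟨k0, hk0s, hk0⟩ := hcon
    -- normalise
    set g' : ι → Ω := fun i => g i / g k0 with hg'
    have hg'0 : g' k0 = 1 := by simp [hg', hk0]
    have hrel' : ∑ i ∈ s, g' i • e i = 0 := by
      have : ∑ i ∈ s, g' i • e i = (g k0)⁻¹ • ∑ i ∈ s, g i • e i := by
        rw [Finset.smul_sum]
        refine Finset.sum_congr rfl fun i _ => ?_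
        rw [smul_smul]
        congr 1
        simp only [hg', div_eq_inv_mul]
      rw [this, hg, smul_zero]
    -- all coefficients are fixed by `I`
    have hfixed : ∀ i ∈ s, ∀ τ : I, τ • g' i = g' i := by
      intro i hi τ
      have h1 := sum_smul_smul_eq_zero e he s g' hrel' τ
      have h2 : ∑ j ∈ s.erase k0, (τ • g' j - g' j) • e j = 0 := by
        have h3 : ∑ j ∈ s, (τ • g' j - g' j) • e j = 0 := by
          simp only [sub_smul, Finset.sum_sub_distrib, h1, hrel', sub_zero]
        rw [← Finset.add_sum_erase s _ hk0s] at h3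
        simpa [hg'0] using h3
      have hcard : (s.erase k0).card < n := by
        rw [Finset.card_erase_of_mem hk0s, hs]
        have : 0 < s.card := Finset.card_pos.mpr ⟨k0, hk0s⟩
        omega
      by_cases hik : i = k0
      · subst hik
        rw [hg'0, smul_one]
      · have := ih _ hcard (s.erase k0) rfl _ h2 i (Finset.mem_erase.mpr ⟨hik, hi⟩)
        exact sub_eq_zero.mp this
    -- hence they lie in `K`
    have hinK : ∀ i ∈ s, ∃ a : K, algebraMap K Ω a = g' i := fun i hi =>
      hfix _ (hfixed i hi)
    choose! a ha using hinK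
    have hrelK : ∑ i ∈ s, a i • e i = 0 := by
      rw [← hrel']
      refine Finset.sum_congr rfl fun i hi => ?_
      funext x
      simp only [Pi.smul_apply, smul_eq_mul, Algebra.smul_def, ha i hi]
    have h0 := (linearIndependent_iff'.mp hK) s a hrelK k0 hk0s
    have : g' k0 = 0 := by rw [← ha k0 hk0s, h0, map_zero]
    rw [hg'0] at this
    exact one_ne_zero this

end Descent

end Fermat.Agent.S33P.HopfQuot12
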