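/-
S33 programme, brick O1b (helper12): **the quotient Hopf order.**

For a Hopf order `H` on `C` (helper75's `HopfOrder75.HopfOrder`) and a stable subgroup `C₁ ≤ C`,
the translation-invariant functions `H.invCarrier C₁` form a Hopf order on `C ⧸ C₁`
(`HopfOrder.quot`), local if `H` is (`HopfOrder.IsLocal.quot`).

* separation of the cosets: Dedekind independence of the evaluations on `H` + the trace
  `h ↦ ∑_{c ∈ C₁} h (· + c)`, which preserves `H` because the coefficients `∑_{c ∈ C₁} b i c`
  are inertia-fixed elements of `P`, hence in `W`;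
* `Δ`-closedness: the saturation argument of `Core.lean` + Galois descent (`Descent.lean`).
-/
import Mathlib
import Fermat.Agent.S33P.HopfOrder75.Defs
import Fermat.Agent.S33P.HopfQuot12.Descent
import Fermat.Agent.S33P.HopfQuot12.Core

set_option autoImplicit false

namespace Fermat.Agent.S33P.HopfQuot12

open Fermat.Agent.S33P.HopfOrder75

variable {W : Type*} [CommRing W] {p : ℕ} {Ω : Type*} [Field Ω] [Algebra W Ω]
  {P : ValuationSubring Ω} {I : Type*} [Group I] [MulSemiringAction I Ω]
  {C : Type*} [AddCommGroup C] {act : I →* AddMonoid.End C}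

/-! ### Galois descent for the functions of a Hopf order -/

/-- A family of functions of a Hopf order that is independent over `W` is independent over `Ω`. -/
theorem linearIndependent_of_base [IsDomain W] (hB : Base W p P I) (H : HopfOrder W P act)
    {ι : Type*} (v : ι → C → Ω) (hv : ∀ i, v i ∈ H.carrier) (hW : LinearIndependent W v) :
    LinearIndependent Ω v := by
  let _ : MulAction I C := MulAction.compHom C act
  have : FaithfulSMul W Ω := (faithfulSMul_iff_algebraMap_injective W Ω).mpr hB.inj
  let _ := FractionRing.liftAlgebra W Ω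
  have hfix : ∀ x : Ω, (∀ τ : I, τ • x = x) → x ∈ (algebraMap (FractionRing W) Ω).range := by
    intro x hx
    obtain ⟨w, n, hwn⟩ := hB.fixed x hx
    refine ⟨algebraMap W (FractionRing W) w / (p : FractionRing W) ^ n, ?_⟩
    rw [map_div₀, map_pow, map_natCast, ← IsScalarTower.algebraMap_apply, ← hwn,
      mul_div_cancel_left₀ _ (pow_ne_zero n hB.p_ne_zero)]
  have he : ∀ i, IsEquivariant I (v i) := fun i τ x => H.equivariant (v i) (hv i) τ x
  have hK : LinearIndependent (FractionRing W) v :=
    (LinearIndependent.iff_fractionRing W (FractionRing W)).mp hW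
  exact linearIndependent_of_isEquivariant hfix v he hK

/-! ### The invariant functions as a submodule of `Maps(C, Ω)` -/

/-- The functions of `H` invariant under translation by `C₁`. -/
def invSub (H : HopfOrder W P act) (C₁ : AddSubgroup C) : Submodule W (C → Ω) where
  carrier := {h | h ∈ H.carrier ∧ ∀ (x : C), ∀ c ∈ C₁, h (x + c) = h x}
  add_mem' := by
    rintro f g ⟨hf, hf'⟩ ⟨hg, hg'⟩
    exact ⟨H.carrier.add_mem hf hg, fun x c hc => by
      simp only [Pi.add_apply, hf' x c hc, hg' x c hc]⟩
  zero_mem' := ⟨H.carrier.zero_mem, fun _ _ _ => rfl⟩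
  smul_mem' := by
    rintro w f ⟨hf, hf'⟩
    exact ⟨H.carrier.smul_mem hf w, fun x c hc => by
      simp only [Pi.smul_apply, hf' x c hc]⟩

theorem mem_invSub {H : HopfOrder W P act} {C₁ : AddSubgroup C} {h : C → Ω} :
    h ∈ invSub H C₁ ↔ h ∈ H.carrier ∧ ∀ (x : C), ∀ c ∈ C₁, h (x + c) = h x := Iff.rfl

theorem invSub_le (H : HopfOrder W P act) (C₁ : AddSubgroup C) :
    invSub H C₁ ≤ Subalgebra.toSubmodule H.carrier := fun _ hf => hf.1

theorem invSub_saturated (hB : Base W p P I) (H : HopfOrder W P act) (C₁ : AddSubgroup C)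
    (w : W) (f : C → Ω) (hw : w ≠ 0) (hf : f ∈ Subalgebra.toSubmodule H.carrier)
    (hwf : w • f ∈ invSub H C₁) : f ∈ invSub H C₁ := by
  refine ⟨hf, fun x c hc => ?_⟩
  have h1 := hwf.2 x c hc
  simp only [Pi.smul_apply, Algebra.smul_def] at h1
  have hw' : algebraMap W Ω w ≠ 0 := fun h0 => hw (hB.inj (by rw [h0, map_zero]))
  exact mul_left_cancel₀ hw' h1

/-! ### The trace -/

section Trace

variable (C₁ : AddSubgroup C) [Fintype C₁]

/-- The trace `h ↦ ∑_{c ∈ C₁} h (· + c)`, an `Ω`-linear endomorphism of `Maps(C, Ω)`. -/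
def trL : (C → Ω) →ₗ[Ω] (C → Ω) where
  toFun h := fun x => ∑ c : C₁, h (x + c)
  map_add' f g := by
    funext x
    simp [Finset.sum_add_distrib]
  map_smul' a f := by
    funext x
    simp [Finset.mul_sum]

theorem trL_apply (h : C → Ω) (x : C) : trL C₁ h x = ∑ c : C₁, h (x + c) := rfl

/-- The trace is invariant under translation by `C₁`. -/
theorem trL_invariant (h : C → Ω) (x : C) (c' : C) (hc' : c' ∈ C₁) :
    trL C₁ h (x + c') = trL (Ω := Ω) C₁ h x := by
  rw [trL_apply, trL_apply]
  rw [← Equiv.sum_comp (Equiv.addLeft (⟨c', hc'⟩ : C₁)) (fun c : C₁ => h (x + c))]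
  refine Finset.sum_congr rfl fun c _ => ?_
  simp [add_assoc]

/-- On invariant functions the trace is multiplication by `|C₁|`. -/
theorem trL_of_invariant (h : C → Ω) (hh : ∀ (x : C), ∀ c ∈ C₁, h (x + c) = h x) :
    trL C₁ h = (Fintype.card C₁ : Ω) • h := by
  funext x
  have h1 : ∑ c : C₁, h (x + c) = ∑ _c : C₁, h x :=
    Finset.sum_congr rfl fun c _ => hh x c c.2
  rw [trL_apply, Pi.smul_apply, smul_eq_mul, h1, Finset.sum_const, Finset.card_univ,
    nsmul_eq_mul]

/-- The permutation of a stable subgroup induced by `τ`. -/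
def stabEquiv (hst : IsStable act C₁) (τ : I) : C₁ ≃ C₁ where
  toFun c := ⟨act τ c, hst τ c c.2⟩
  invFun c := ⟨act τ⁻¹ c, hst τ⁻¹ c c.2⟩
  left_inv c := by
    apply Subtype.ext
    show act τ⁻¹ (act τ (c : C)) = c
    have : act τ⁻¹ (act τ (c : C)) = (act τ⁻¹ * act τ) (c : C) := rfl
    rw [this, ← map_mul, inv_mul_cancel, map_one]
    rfl
  right_inv c := by
    apply Subtype.ext
    show act τ (act τ⁻¹ (c : C)) = c
    have : act τ (act τ⁻¹ (c : C)) = (act τ * act τ⁻¹) (c : C) := rfl
    rw [this, ← map_mul, mul_inv_cancel, map_one]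
    rfl

/-- **The trace preserves a Hopf order.** -/
theorem trL_mem (hB : Base W p P I) (H : HopfOrder W P act) (hst : IsStable act C₁)
    {h : C → Ω} (hh : h ∈ H.carrier) : trL C₁ h ∈ H.carrier := by
  obtain ⟨n, a, b, ha, hb, hab⟩ := H.comul h hh
  -- the coefficients are inertia-fixed elements of `P`
  have hcoef : ∀ i, ∃ w : W, algebraMap W Ω w = ∑ c : C₁, b i c := by
    intro i
    refine hB.fixedP _ (P.toSubring.sum_mem fun c _ => H.mem_P (b i) (hb i) c) fun τ => ?_
    rw [Finset.smul_sum]
    rw [← Equiv.sum_comp (stabEquiv C₁ hst τ) (fun c : C₁ => b i c)]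
    refine Finset.sum_congr rfl fun c _ => ?_
    exact (H.equivariant (b i) (hb i) τ c).symm
  choose w hw using hcoef
  have : trL C₁ h = ∑ i, w i • a i := by
    funext x
    rw [trL_apply, Finset.sum_apply]
    simp only [Pi.smul_apply, Algebra.smul_def, hw, hab]
    rw [Finset.sum_comm]
    refine Finset.sum_congr rfl fun i _ => ?_
    rw [← Finset.mul_sum, mul_comm]
  rw [this]
  exact H.carrier.sum_mem fun i _ => H.carrier.smul_mem (ha i) (w i)

theorem trL_mem_invSub (hB : Base W p P I) (H : HopfOrder W P act) (hst : IsStable act C₁)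
    {h : C → Ω} (hh : h ∈ H.carrier) : trL C₁ h ∈ invSub H C₁ :=
  ⟨trL_mem C₁ hB H hst hh, fun x c hc => trL_invariant C₁ h x c hc⟩

/-- Invariant elements of the `Ω`-span of `H` lie in the `Ω`-span of the invariants of `H`. -/
theorem mem_span_invSub (hB : Base W p P I) (H : HopfOrder W P act) (hst : IsStable act C₁)
    (hcard : (Fintype.card C₁ : Ω) ≠ 0) {g : C → Ω}
    (hg : g ∈ Submodule.span Ω (H.carrier : Set (C → Ω)))
    (hinv : ∀ (x : C), ∀ c ∈ C₁, g (x + c) = g x) :
    g ∈ Submodule.span Ω (invSub H C₁ : Set (C → Ω)) := by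
  have h1 : trL C₁ g ∈ Submodule.span Ω (invSub H C₁ : Set (C → Ω)) := by
    have hmap : Submodule.map (trL (Ω := Ω) C₁) (Submodule.span Ω (H.carrier : Set (C → Ω))) ≤
        Submodule.span Ω (invSub H C₁ : Set (C → Ω)) := by
      rw [Submodule.map_span, Submodule.span_le]
      rintro _ ⟨f, hf, rfl⟩
      exact Submodule.subset_span (trL_mem_invSub C₁ hB H hst hf)
    exact hmap ⟨g, hg, rfl⟩
  rw [trL_of_invariant C₁ g hinv] at h1
  have := Submodule.smul_mem _ ((Fintype.card C₁ : Ω))⁻¹ h1
  rwa [smul_smul, inv_mul_cancel₀ hcard, one_smul] at this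

end Trace

/-! ### Separation of the cosets -/

section Separation

variable (C₁ : AddSubgroup C) [Fintype C₁]

/-- Evaluation at a point, as a monoid homomorphism on the functions of a Hopf order. -/
def evHom (H : HopfOrder W P act) (c : C) : H.carrier →* Ω where
  toFun h := (h : C → Ω) c
  map_one' := rfl
  map_mul' _ _ := rfl

theorem evHom_injective (H : HopfOrder W P act) : Function.Injective (evHom H) := by
  intro c c' hcc
  by_contra hne
  obtain ⟨h, hh, hne'⟩ := H.separates c c' hne
  exact hne' (DFunLike.congr_fun hcc ⟨h, hh⟩)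

/-- Dedekind: the evaluations at the points of `C` are `Ω`-linearly independent on `H`. -/
theorem linearIndependent_evHom (H : HopfOrder W P act) :
    LinearIndependent Ω (fun c : C => (evHom H c : H.carrier → Ω)) :=
  (linearIndependent_monoidHom H.carrier Ω).comp (evHom H) (evHom_injective H)

/-- Two points in different cosets of `C₁` are separated by the trace of a function of `H`. -/
theorem exists_trL_ne (H : HopfOrder W P act) {x y : C} (hxy : x - y ∉ C₁) :
    ∃ h ∈ H.carrier, trL C₁ h x ≠ trL (Ω := Ω) C₁ h y := by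
  classical
  by_contra hcon
  push Not at hcon
  -- the points `x + c`, `y + c`
  let φ : C₁ ⊕ C₁ → C := Sum.elim (fun c => x + c) (fun c => y + c)
  have hφ : Function.Injective φ := by
    rintro (c | c) (c' | c') hcc
    · simp only [φ, Sum.elim_inl, add_right_inj] at hcc
      rw [Subtype.ext hcc]
    · exfalso
      simp only [φ, Sum.elim_inl, Sum.elim_inr] at hcc
      apply hxy
      have : x - y = (c' : C) - c := by
        rw [sub_eq_sub_iff_add_eq_add, hcc, add_comm]
      rw [this]
      exact C₁.sub_mem c'.2 c.2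
    · exfalso
      simp only [φ, Sum.elim_inl, Sum.elim_inr] at hcc
      apply hxy
      have : x - y = (c : C) - c' := by
        rw [sub_eq_sub_iff_add_eq_add, ← hcc, add_comm]
      rw [this]
      exact C₁.sub_mem c.2 c'.2
    · simp only [φ, Sum.elim_inr, add_right_inj] at hcc
      rw [Subtype.ext hcc]
  have hLI := (linearIndependent_evHom H).comp φ hφ
  let g : C₁ ⊕ C₁ → Ω := Sum.elim (fun _ => 1) (fun _ => -1)
  have hzero : ∑ i, g i • ((fun c : C => (evHom H c : H.carrier → Ω)) ∘ φ) i = 0 := by
    funext h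
    rw [Fintype.sum_sum_type]
    simp only [g, φ, Sum.elim_inl, Sum.elim_inr, Function.comp_apply, Finset.sum_apply,
      Pi.add_apply, Pi.smul_apply, smul_eq_mul, one_mul, neg_mul, Finset.sum_neg_distrib,
      Pi.zero_apply]
    have := hcon h.1 h.2
    rw [trL_apply, trL_apply] at this
    rw [← sub_eq_add_neg, sub_eq_zero]
    exact this
  have := Fintype.linearIndependent_iff.mp hLI g hzero (Sum.inl 0)
  simp [g] at this

end Separation

/-! ### The quotient Hopf order -/

section Quotient

variable [IsDomain W] [IsPrincipalIdealRing W]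

omit [IsDomain W] [IsPrincipalIdealRing W] in
/-- The functions of a Hopf order invariant under translation by a stable subgroup `C₁` separate
the points of `C ⧸ C₁`. -/
theorem invCarrier_separates (hB : Base W p P I) (H : HopfOrder W P act) (C₁ : AddSubgroup C)
    [Finite C₁] (hst : IsStable act C₁) :
    ∀ x y : C ⧸ C₁, x ≠ y → ∃ f ∈ H.invCarrier C₁, f x ≠ f y := by
  classical
  have := Fintype.ofFinite C₁
  intro x y hxy
  obtain ⟨x, rfl⟩ := QuotientAddGroup.mk_surjective x
  obtain ⟨y, rfl⟩ := QuotientAddGroup.mk_surjective y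
  have hxy' : x - y ∉ C₁ := by
    intro hmem
    apply hxy
    rw [QuotientAddGroup.eq]
    have : -x + y = -(x - y) := by abel
    rw [this]
    exact C₁.neg_mem hmem
  obtain ⟨h, hh, hne⟩ := exists_trL_ne C₁ H hxy'
  obtain ⟨f, hf, hfc⟩ := HopfOrder.exists_mem_invCarrier (H := H) (C₁ := C₁)
    (trL_mem C₁ hB H hst hh) (fun x c hc => trL_invariant C₁ h x c hc)
  exact ⟨f, hf, by rw [hfc, hfc]; exact hne⟩

/-- The functions of a Hopf order invariant under translation by a stable subgroup `C₁` are
`Δ`-closed on `C ⧸ C₁`. -/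
theorem invCarrier_comul (hB : Base W p P I) (H : HopfOrder W P act) (C₁ : AddSubgroup C)
    [Finite C₁] (hst : IsStable act C₁) (hcard : (Nat.card C₁ : Ω) ≠ 0) :
    ∀ f ∈ H.invCarrier C₁, ∃ (n : ℕ) (a b : Fin n → C ⧸ C₁ → Ω), (∀ i, a i ∈ H.invCarrier C₁) ∧
      (∀ i, b i ∈ H.invCarrier C₁) ∧ ∀ x y : C ⧸ C₁, f (x + y) = ∑ i, a i x * b i y := by
  classical
  have := Fintype.ofFinite C₁
  have hcard' : (Fintype.card C₁ : Ω) ≠ 0 := by rwa [← Nat.card_eq_fintype_card]
  intro f hf
  set h : C → Ω := fun c => f (QuotientAddGroup.mk c) with hh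
  have hhH : h ∈ H.carrier := hf
  have hhinv : ∀ (x : C), ∀ c ∈ C₁, h (x + c) = h x := by
    intro x c hc
    simp only [hh]
    congr 1
    rw [QuotientAddGroup.eq]
    simpa using hc
  obtain ⟨n, a, b, ha, hb, hab⟩ := H.comul h hhH
  have hleft : ∀ y, (fun x => h (x + y)) ∈ Submodule.span Ω (invSub H C₁ : Set (C → Ω)) := by
    intro y
    refine mem_span_invSub C₁ hB H hst hcard' ?_ ?_
    · have : (fun x => h (x + y)) = ∑ i, b i y • a i := by
        funext x
        simp only [Finset.sum_apply, Pi.smul_apply, smul_eq_mul, hab x y]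
        exact Finset.sum_congr rfl fun i _ => mul_comm _ _
      rw [this]
      exact Submodule.sum_mem _ fun i _ => Submodule.smul_mem _ _ (Submodule.subset_span (ha i))
    · intro x c hc
      show h (x + c + y) = h (x + y)
      rw [add_right_comm]
      exact hhinv _ c hc
  have hright : ∀ x, (fun y => h (x + y)) ∈ Submodule.span Ω (invSub H C₁ : Set (C → Ω)) := by
    intro x
    refine mem_span_invSub C₁ hB H hst hcard' ?_ ?_
    · have : (fun y => h (x + y)) = ∑ i, a i x • b i := by
        funext y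
        simp only [Finset.sum_apply, Pi.smul_apply, smul_eq_mul, hab x y]
      rw [this]
      exact Submodule.sum_mem _ fun i _ => Submodule.smul_mem _ _ (Submodule.subset_span (hb i))
    · intro y c hc
      show h (x + (y + c)) = h (x + y)
      rw [← add_assoc]
      exact hhinv _ c hc
  obtain ⟨a', b', ha', hb', hab'⟩ := exists_decomp_of_saturated hB.inj
    (Subalgebra.toSubmodule H.carrier) H.fg (invSub H C₁) (invSub_le H C₁)
    (invSub_saturated hB H C₁)
    (fun m v hv hW => linearIndependent_of_base hB H v hv hW)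
    h a b ha hb hab hleft hright
  -- descend to the quotient
  have hdesc : ∀ g ∈ invSub H C₁, ∃ g' ∈ H.invCarrier C₁,
      ∀ c : C, g' (QuotientAddGroup.mk c) = g c := fun g hg =>
    HopfOrder.exists_mem_invCarrier (H := H) (C₁ := C₁) hg.1 hg.2
  choose a'' ha'' haa using fun i => hdesc (a' i) (ha' i)
  choose b'' hb'' hbb using fun i => hdesc (b' i) (hb' i)
  refine ⟨n, a'', b'', ha'', hb'', fun x y => ?_⟩
  obtain ⟨x, rfl⟩ := QuotientAddGroup.mk_surjective x
  obtain ⟨y, rfl⟩ := QuotientAddGroup.mk_surjective y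
  rw [← QuotientAddGroup.mk_add]
  show h (x + y) = _
  rw [hab' x y]
  exact Finset.sum_congr rfl fun i _ => by rw [haa, hbb]

/-- **O1b.** The quotient of a Hopf order by a stable subgroup: the translation-invariant
functions, as a Hopf order on `C ⧸ C₁`. -/
def quot (hB : Base W p P I)
    (H : HopfOrder W P act) (C₁ : AddSubgroup C) [Finite C₁] (hst : IsStable act C₁)
    (hcard : (Nat.card C₁ : Ω) ≠ 0) : HopfOrder W P (actQuot act C₁ hst) where
  carrier := H.invCarrier C₁
  fg := H.invCarrier_fg C₁
  mem_P := H.invCarrier_mem_P C₁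
  equivariant := H.invCarrier_equivariant C₁ hst
  separates := invCarrier_separates hB H C₁ hst
  comul := invCarrier_comul hB H C₁ hst hcard

@[simp] theorem quot_carrier (hB : Base W p P I) (H : HopfOrder W P act) (C₁ : AddSubgroup C)
    [Finite C₁] (hst : IsStable act C₁) (hcard : (Nat.card C₁ : Ω) ≠ 0) :
    (quot hB H C₁ hst hcard).carrier = H.invCarrier C₁ := rfl

/-- The quotient of a local Hopf order is local. -/
theorem isLocal_quot (hB : Base W p P I)
    {H : HopfOrder W P act} (hH : H.IsLocal) (C₁ : AddSubgroup C) [Finite C₁]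
    (hst : IsStable act C₁) (hcard : (Nat.card C₁ : Ω) ≠ 0) :
    (quot hB H C₁ hst hcard).IsLocal :=
  HopfOrder.invCarrier_local hH C₁

/-- In characteristic zero the cardinality hypothesis is automatic. -/
theorem natCard_ne_zero [CharZero Ω] (C₁ : AddSubgroup C) [Finite C₁] :
    (Nat.card C₁ : Ω) ≠ 0 := by
  rw [Nat.cast_ne_zero]
  exact Nat.card_pos.ne'

end Quotient

end Fermat.Agent.S33P.HopfQuot12
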