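/-
S33 programme, brick O1b (helper12): quotient Hopf orders.

`Split.lean` — a saturated submodule of a finitely generated torsion-free module over a PID is a
direct summand: there is a linear projection onto it.  Mathlib only.
-/
import Mathlib

set_option autoImplicit false

namespace Fermat.Agent.S33P.HopfQuot12

open Module

/-- A saturated submodule `N` of a finitely generated torsion-free module `M` over a principal
ideal domain admits a linear retraction `π : M → M` with image in `N` and `π = id` on `N`. -/
theorem exists_proj_of_saturated {W M : Type*} [CommRing W] [IsDomain W]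
    [IsPrincipalIdealRing W] [AddCommGroup M] [Module W M] [Module.Finite W M]
    (N : Submodule W M) (hsat : ∀ (w : W) (m : M), w ≠ 0 → w • m ∈ N → m ∈ N) :
    ∃ π : M →ₗ[W] M, (∀ m, π m ∈ N) ∧ ∀ m ∈ N, π m = m := by
  have : IsTorsionFree W (M ⧸ N) := by
    refine IsTorsionFree.of_smul_eq_zero fun w q hq => ?_
    by_cases hw : w = 0
    · exact Or.inl hw
    · right
      obtain ⟨m, rfl⟩ := Submodule.Quotient.mk_surjective N q
      rw [← Submodule.Quotient.mk_smul, Submodule.Quotient.mk_eq_zero] at hq
      exact (Submodule.Quotient.mk_eq_zero N).mpr (hsat w m hw hq)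
  have : Module.Free W (M ⧸ N) := Module.free_of_finite_type_torsion_free'
  obtain ⟨s, hs⟩ := Module.projective_lifting_property N.mkQ (LinearMap.id : (M ⧸ N) →ₗ[W] M ⧸ N)
    (Submodule.mkQ_surjective N)
  refine ⟨(LinearMap.id : M →ₗ[W] M) - s ∘ₗ N.mkQ, fun m => ?_, fun m hm => ?_⟩
  · rw [← Submodule.Quotient.mk_eq_zero N]
    have h1 : N.mkQ (s (N.mkQ m)) = N.mkQ m := by
      have := LinearMap.congr_fun hs (N.mkQ m)
      simpa using this
    have h2 : N.mkQ (((LinearMap.id : M →ₗ[W] M) - s ∘ₗ N.mkQ) m) = 0 := by
      simp only [LinearMap.sub_apply, LinearMap.id_coe, id_eq, LinearMap.coe_comp,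
        Function.comp_apply, map_sub, h1, sub_self]
    exact h2
  · have h0 : N.mkQ m = 0 := (Submodule.Quotient.mk_eq_zero N).mpr hm
    simp [h0]

end Fermat.Agent.S33P.HopfQuot12
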